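import Fermat.Agent.S43.R0.UOp
import Fermat.Agent.ES.An.BC
import Fermat.Agent.ES.B.Module

/-!
# S43 / R0 : `π^* : F_N = FF N → F1(N)` and the pull-back `ES.Kum N m → B1.Kum Qb (F1Q N).F m`

`π : X₁(N) → X₀(N)`.  Both fields are subfields of `ℚ̄((q))`, and `π^*` is the inclusion.

* `FF_le`          : `modularFunctionFieldBar N ≤ (X1.F1Q N).E`;
* `incl`, `φ_incl` : the inclusion, and its analytic description;
* `dia_incl`       : the diamond operators fix `FF N`;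
* `mem_range_incl` : conversely, an element fixed by all the diamond operators belongs to `FF N`;
* `pull`, `pull_gal`, `dia_pull`.
-/

set_option autoImplicit false
set_option linter.unusedSectionVars false

open AlgebraicCurve ModularCurve UpperHalfPlane CongruenceSubgroup
open scoped MatrixGroups

namespace Fermat.Agent.S43.R0

open Fermat.Agent.S24 Fermat.Agent.ES.An Fermat.Agent.S48 Fermat.Agent.S48.Coh1
open Fermat.Agent.ES (Qb GQ FF)
open Fermat.Agent.S48.An1 (X1Data Gpm)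

noncomputable section

variable {N : ℕ} [NeZero N]

theorem Gpm_le_Gamma0 (N : ℕ) : Gpm N ≤ Gamma0 N := by
  rintro γ (h | h)
  · exact Gamma1_in_Gamma0 N h
  · have h1 := Gamma1_in_Gamma0 N h
    rw [Gamma0_mem] at h1 ⊢
    simpa using h1

/-- TASK S43/R0-MF : a modular form on `Γ₀(N)` is a modular form on `± Γ₁(N)`
(`X1.isMF_of`, `ES.An.IsMF_slash_eq`, `ES.An.IsMF_bdd_slash` of `ES/An/MkMF.lean`, `Sturm.IsMF.mdiff`). -/
theorem isMF_of_Gamma0 {k : ℤ} {F : ℍ → ℂ} (hF : Sturm.IsMF N k F) : X1.IsMF (Gpm N) k F :=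
  X1.isMF_of k F hF.mdiff (fun γ => ES.An.IsMF_slash_eq hF ⟨γ, Gpm_le_Gamma0 N γ.2⟩)
    (fun g => ES.An.IsMF_bdd_slash hF g)

theorem isMFr_of_Gamma0 {u : Mer} (hu : ES.An.IsMFr N u) : X1.IsMFr (Gpm N) u := by
  obtain ⟨k, A, B, hA, hB, hB0, rfl⟩ := hu
  exact ⟨k, A, B, isMF_of_Gamma0 hA, isMF_of_Gamma0 hB, hB0, rfl⟩

variable (hN : 5 ≤ N)

include hN in
/-- **`F_N ⊆ F1(N)`.** -/
theorem FF_le : modularFunctionFieldBar N ≤ (X1.F1Q N).E := by
  intro x hx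
  exact (DD hN).mem_of_isMFr (toMer N (bc N ⟨x, hx⟩)) x (isMFr_of_Gamma0 (isMFr_toMer N _))
    (hasLau_toMer N (bc N ⟨x, hx⟩))

/-- `π^*` on the function fields. -/
def incl : FF N →ₐ[Qb] (X1.F1Q N).F := IntermediateField.inclusion (FF_le hN)

@[simp]
theorem coe_incl (f : FF N) : ((incl hN f : (X1.F1Q N).F) : LaurentSeries Qb) = f :=
  IntermediateField.coe_inclusion (FF_le hN) f

theorem incl_injective : Function.Injective (incl hN) := (incl hN).toRingHom.injective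

theorem φ_incl (f : FF N) : (DD hN).φ (incl hN f) = toMer N (bc N f) :=
  ((DD hN).hasLau (incl hN f)).eq_of_eq (hasLau_toMer N (bc N f))

/-- the diamond operators fix `F_N`. -/
theorem dia_incl (d : (ZMod N)ˣ) (f : FF N) : An1.dia (DD hN) d (incl hN f) = incl hN f := by
  apply (DD hN).φ_injective
  rw [An1.φ_dia, φ_incl]
  exact cmp_toMer N (sig N d) _

theorem galF_incl (σ : GQ) (f : FF N) :
    (X1.F1Q N).galF σ (incl hN f) = incl hN (ES.galF N σ f) := by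
  apply Subtype.ext
  rw [B1.QField.coe_galF, coe_incl, coe_incl, ES.coe_galF]

open scoped ModularForm

/-- for a modular form on `± Γ₁(N)`, `B ∣ g` (`g ∈ Γ₀(N)`) depends only on `Gamma0Map g`. -/
theorem slash_eq_of_Gamma0Map_eq {k : ℤ} {B : ℍ → ℂ} (hB : X1.IsMF (Gpm N) k B) {g g' : Gamma0 N}
    (h : Gamma0Map N g = Gamma0Map N g') :
    B ∣[k] (g : SL(2, ℤ)) = B ∣[k] (g' : SL(2, ℤ)) := by
  have h1 : ((g * g'⁻¹ : Gamma0 N) : SL(2, ℤ)) ∈ Gamma1 N := by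
    rw [mem_Gamma1_iff]
    apply (Gamma0Map_isUnit N g').mul_right_cancel
    rw [← map_mul, inv_mul_cancel_right, one_mul, h]
  have h2 := X1.IsMF_slash_eq hB ⟨_, An1.Gamma1_le_Gpm N h1⟩
  have h3 : (g : SL(2, ℤ)) = ((g * g'⁻¹ : Gamma0 N) : SL(2, ℤ)) * (g' : SL(2, ℤ)) := by
    rw [← Subgroup.coe_mul, inv_mul_cancel_right]
  rw [h3, SlashAction.slash_mul, h2]

theorem coe_prod_Hol {ι : Type*} (s : Finset ι) (F : ι → Hol) :
    ((∏ i ∈ s, F i : Hol) : ℍ → ℂ) = ∏ i ∈ s, (F i : ℍ → ℂ) :=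
  map_prod (Hol.val : Hol →ₐ[ℂ] (ℍ → ℂ)) F s

/-- a quotient of modular forms on `± Γ₁(N)` which is invariant under `Γ₀(N)` is a quotient of modular forms
on `Γ₀(N)`. -/
theorem isMFr_of_inv {u : Mer} (hu : X1.IsMFr (Gpm N) u)
    (hinv : ∀ g : Gamma0 N, cmp (slp (g : SL(2, ℤ))) u = u) : ES.An.IsMFr N u := by
  classical
  obtain ⟨k, A, B, hA, hB, hB0, rfl⟩ := hu
  have hinj := IsFractionRing.injective Hol Mer
  -- the two families
  let FB : (ZMod N)ˣ → Hol := fun d => slHol k (sig N d : SL(2, ℤ)) B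
  let FA : (ZMod N)ˣ → Hol := fun d =>
    if d = 1 then slHol k (sig N d : SL(2, ℤ)) A else slHol k (sig N d : SL(2, ℤ)) B
  let K : ℤ := ∑ _d : (ZMod N)ˣ, k
  have hBp0 : (∏ d, FB d) ≠ 0 := Finset.prod_ne_zero_iff.mpr fun d _ => slHol_ne_zero k _ hB0
  have hBp0' : algebraMap Hol Mer (∏ d, FB d) ≠ 0 := by
    rw [Ne, map_eq_zero_iff _ hinj]
    exact hBp0
  -- `u = Ap / Bp`
  have hu : algebraMap Hol Mer A / algebraMap Hol Mer B
      = algebraMap Hol Mer (∏ d, FA d) / algebraMap Hol Mer (∏ d, FB d) := by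
    have h1 := hinv (sig N 1)
    rw [cmp_div_eq k _ A B hB0] at h1
    have h2 : algebraMap Hol Mer (slHol k (sig N 1 : SL(2, ℤ)) B) ≠ 0 := by
      rw [Ne, map_eq_zero_iff _ hinj]
      exact slHol_ne_zero k _ hB0
    rw [← h1, div_eq_div_iff h2 hBp0', ← map_mul, ← map_mul,
      ← Finset.mul_prod_erase Finset.univ FB (Finset.mem_univ 1),
      ← Finset.mul_prod_erase Finset.univ FA (Finset.mem_univ 1)]
    have h3 : ∏ d ∈ Finset.univ.erase (1 : (ZMod N)ˣ), FA d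
        = ∏ d ∈ Finset.univ.erase (1 : (ZMod N)ˣ), FB d :=
      Finset.prod_congr rfl fun d hd => if_neg (Finset.ne_of_mem_erase hd)
    have h4 : FA 1 = slHol k (sig N 1 : SL(2, ℤ)) A := if_pos rfl
    rw [h3, h4]
    congr 1
    ring
  -- boundedness
  have hbdd : ∀ (X : Hol), X1.IsMF (Gpm N) k (X : ℍ → ℂ) → ∀ (d : (ZMod N)ˣ) (g : SL(2, ℤ)),
      IsBoundedAtImInfty ((slHol k (sig N d : SL(2, ℤ)) X : ℍ → ℂ) ∣[k] g) := by
    intro X hX d g
    rw [coe_slHol, ← SlashAction.slash_mul]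
    exact X1.IsMF_bdd_slash hX _
  have hbB : ∀ g : SL(2, ℤ), IsBoundedAtImInfty (((∏ d, FB d : Hol) : ℍ → ℂ) ∣[K] g) := by
    intro g
    rw [coe_prod_Hol, An1.prod_slash_SL]
    exact An1.prodMF_bdd _ _ fun d _ => hbdd B hB d g
  have hbA : ∀ g : SL(2, ℤ), IsBoundedAtImInfty (((∏ d, FA d : Hol) : ℍ → ℂ) ∣[K] g) := by
    intro g
    rw [coe_prod_Hol, An1.prod_slash_SL]
    refine An1.prodMF_bdd _ _ fun d _ => ?_
    by_cases hd : d = 1
    · rw [show FA d = slHol k (sig N d : SL(2, ℤ)) A from if_pos hd]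
      exact hbdd A hA d g
    · rw [show FA d = slHol k (sig N d : SL(2, ℤ)) B from if_neg hd]
      exact hbdd B hB d g
  -- invariance of the denominator
  have hiB : ∀ γ : Gamma0 N, ((∏ d, FB d : Hol) : ℍ → ℂ) ∣[K] (γ : SL(2, ℤ))
      = ((∏ d, FB d : Hol) : ℍ → ℂ) := by
    intro γ
    obtain ⟨e, he⟩ := Gamma0Map_isUnit N γ
    rw [coe_prod_Hol, An1.prod_slash_SL,
      ← Equiv.prod_comp (Equiv.mulRight e) (fun d => (FB d : ℍ → ℂ))]
    refine Finset.prod_congr rfl fun d _ => ?_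
    show ((B : ℍ → ℂ) ∣[k] (sig N d : SL(2, ℤ))) ∣[k] (γ : SL(2, ℤ))
      = (B : ℍ → ℂ) ∣[k] (sig N (d * e) : SL(2, ℤ))
    rw [← SlashAction.slash_mul, ← Subgroup.coe_mul]
    exact slash_eq_of_Gamma0Map_eq hB (by
      rw [map_mul, Gamma0Map_sig, Gamma0Map_sig, ← he, Units.val_mul])
  -- invariance of the numerator
  have hiA : ∀ γ : Gamma0 N, ((∏ d, FA d : Hol) : ℍ → ℂ) ∣[K] (γ : SL(2, ℤ))
      = ((∏ d, FA d : Hol) : ℍ → ℂ) := by
    intro γ
    have h1 := hinv γ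
    rw [hu, cmp_div_eq K _ _ _ hBp0] at h1
    have h2 : slHol K (γ : SL(2, ℤ)) (∏ d, FB d) = ∏ d, FB d := Subtype.ext (hiB γ)
    rw [h2, div_left_inj' hBp0'] at h1
    exact congrArg Subtype.val (hinj h1)
  exact ⟨K, ∏ d, FA d, ∏ d, FB d, ES.An.isMF_of N K _ (∏ d, FA d : Hol).2 hiA hbA,
    ES.An.isMF_of N K _ (∏ d, FB d : Hol).2 hiB hbB, hBp0, hu⟩

/-- TASK S43/R0-Fix : an element of `F1(N)` fixed by all the diamond operators belongs to `F_N`.
[`u = φ f` is invariant under `Γ₀(N)`: every `g ∈ Γ₀(N)` has `Gamma0Map g = Gamma0Map (sig N d)` for a unit `d`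
(`Gamma0Map_isUnit`), `An1.cmp_eq_of_Gamma0Map_eq`, `An1.φ_dia`.  `u = A / B` with `A B` modular forms on `± Γ₁(N)`; then
`u = (A * ∏_{d ≠ 1} B ∣ σ_d) / (∏_d B ∣ σ_d)`; the denominator is a modular form on `Γ₀(N)`, hence so is the numerator
`= u * denominator`.  So `ES.An.IsMFr N u`; `ES.An.mem_range_of_isMFr`, `ES.An.mem_FN_of_coeffMap_mem`, `HasLau.unique`.
ALTERNATIVE (degrees): Artin's lemma + `Model.deg` for `X1.modelB1` and `ES.An.modelB`.] -/
theorem mem_range_incl (f : (X1.F1Q N).F) (hf : ∀ d : (ZMod N)ˣ, An1.dia (DD hN) d f = f) :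
    ∃ g : FF N, incl hN g = f := by
  have hinv : ∀ g : Gamma0 N, cmp (slp (g : SL(2, ℤ))) ((DD hN).φ f) = (DD hN).φ f := by
    intro g
    obtain ⟨d, hd⟩ := Gamma0Map_isUnit N g
    rw [An1.cmp_eq_of_Gamma0Map_eq (fun γ => (DD hN).inv1 γ f) (g' := sig N d)
      (by rw [Gamma0Map_sig, hd]), ← An1.φ_dia, hf]
  obtain ⟨F, hF⟩ := ES.An.mem_range_of_isMFr N _ (isMFr_of_inv ((DD hN).isMFr f) hinv)
  have h3 := (DD hN).hasLau f
  rw [← hF] at h3
  have h4 : (F : LaurentSeries ℂ) = coeffMap iotaC (f : LaurentSeries Qb) :=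
    (hasLau_toMer N F).unique h3
  have h5 : (f : LaurentSeries Qb) ∈ modularFunctionFieldBar N :=
    mem_FN_of_coeffMap_mem N _ (h4 ▸ F.2)
  exact ⟨⟨_, h5⟩, Subtype.ext (coe_incl hN _)⟩

theorem incl_jN : incl hN (jN N) = (DD hN).B.j := by
  apply (DD hN).φ_injective
  rw [φ_incl]
  have h1 : bc N (jN N) = jC N := bc_jF N ⟨1, one_dvd N⟩
  rw [h1, toMer_jC]
  exact ((DD hN).B.φ_j).symm

/-- `ℚ̄(j) → F_N`, compatible with `π^*`. -/
theorem exists_jHom : ∃ g : (IntermediateField.adjoin Qb {(DD hN).B.j}) →+* FF N,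
    ((incl hN).toRingHom).comp g =
      algebraMap (IntermediateField.adjoin Qb {(DD hN).B.j}) (X1.F1Q N).F := by
  have hle : (IntermediateField.adjoin Qb {(DD hN).B.j}) ≤ (incl hN).fieldRange := by
    rw [IntermediateField.adjoin_simple_le_iff]
    exact ⟨jN N, incl_jN hN⟩
  have hle' : ∀ a : (IntermediateField.adjoin Qb {(DD hN).B.j}),
      (IntermediateField.val _ a : (X1.F1Q N).F) ∈ (incl hN).range := by
    intro a
    obtain ⟨b, hb⟩ := hle a.2
    exact ⟨b, hb⟩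
  refine ⟨(((AlgEquiv.ofInjectiveField (incl hN)).symm.toAlgHom.comp
    ((IntermediateField.val _).codRestrict (incl hN).range hle')).toRingHom), ?_⟩
  apply RingHom.ext
  intro a
  have h2 : ((AlgEquiv.ofInjectiveField (incl hN))
      ((AlgEquiv.ofInjectiveField (incl hN)).symm
        ((IntermediateField.val _).codRestrict (incl hN).range hle' a)) : (X1.F1Q N).F)
      = (((IntermediateField.val _).codRestrict (incl hN).range hle' a : (incl hN).range) :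
        (X1.F1Q N).F) := by
    rw [AlgEquiv.apply_symm_apply]
  exact h2

/-- TASK S43/R0-Int : `F1(N)` is finite over `F_N` (both are finite over `ℚ̄(j)`: `Model.fin` of `X1.modelB1 N hN`;
`j ∈ F_N`). -/
theorem incl_isIntegral : (incl hN).toRingHom.IsIntegral := by
  intro x
  obtain ⟨g, hg⟩ := exists_jHom hN
  obtain ⟨p, hp, hpx⟩ := @IsIntegral.of_finite _ _ _ _ _ (DD hN).B.fin x
  refine ⟨p.map g, hp.map g, ?_⟩
  rw [Polynomial.eval₂_map, hg]
  exact hpx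

/-! ### Kummer modules -/

/-- `π^*` on units. -/
def inclU : (FF N)ˣ →* (X1.F1Q N).Fˣ := Units.map (incl hN : FF N →* (X1.F1Q N).F)

@[simp]
theorem coe_inclU (f : (FF N)ˣ) : ((inclU hN f : (X1.F1Q N).Fˣ) : (X1.F1Q N).F) = incl hN f := rfl

theorem inclU_mem_Dm {m : ℕ} {f : (FF N)ˣ} (hf : f ∈ ES.Dm N m) :
    inclU hN f ∈ B1.Dm Qb (X1.F1Q N).F m := by
  intro Q
  rw [coe_inclU, Place.ord_restrictAlong (incl hN) (incl_isIntegral hN) Q f]
  exact Dvd.dvd.mul_left (hf _) _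

/-- **the pull-back `π^*` on Kummer modules.** -/
def pull (m : ℕ) : ES.Kum N m →+ B1.Kum Qb (X1.F1Q N).F m :=
  MonoidHom.toAdditive (QuotientGroup.map _ _
    (((inclU hN).comp (ES.Dm N m).subtype).codRestrict (B1.Dm Qb (X1.F1Q N).F m)
      (fun f => inclU_mem_Dm hN f.2)) (by
      rintro ⟨f, hf⟩ hfP
      rw [Subgroup.mem_subgroupOf] at hfP
      obtain ⟨h, hh⟩ := hfP
      rw [Subgroup.mem_comap, Subgroup.mem_subgroupOf]
      refine ⟨inclU hN h, ?_⟩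
      have hh' : h ^ m = f := hh
      show inclU hN h ^ m = inclU hN f
      rw [← map_pow, hh']))

theorem pull_mk {m : ℕ} (f : ES.Dm N m) :
    pull hN m (ES.Kum.mk f) = B1.Kum.mk ⟨inclU hN f, inclU_mem_Dm hN f.2⟩ := rfl

theorem pull_gal {m : ℕ} (σ : GQ) (x : ES.Kum N m) :
    pull hN m (ES.galKum N m σ x) = B1.galKum (X1.F1Q N) m σ (pull hN m x) := by
  obtain ⟨f, rfl⟩ := ES.Kum.mk_surjective x
  rw [ES.galKum_mk, pull_mk, pull_mk, B1.galKum_mk]
  exact congrArg B1.Kum.mk (Subtype.ext (Units.ext (galF_incl hN σ _).symm))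

theorem dia_pull {m : ℕ} (d : (ZMod N)ˣ) (x : ES.Kum N m) :
    B1.diaKum (HD hN) m d (pull hN m x) = pull hN m x := by
  obtain ⟨f, rfl⟩ := ES.Kum.mk_surjective x
  rw [pull_mk, B1.diaKum_mk]
  exact congrArg B1.Kum.mk (Subtype.ext (Units.ext (dia_incl hN d _)))

end

end Fermat.Agent.S43.R0
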