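import Fermat.Agent.S43.R0.Pull
import Fermat.Agent.ES.B.DivNorm

/-!
# S43 / R0 : `π_* : F1(N) → F_N` (the norm) and the push-forward `B1.Kum Qb (F1Q N).F m → ES.Kum N m`

`F1(N) / F_N` is Galois with group `(ℤ/N)ˣ / ±1` acting by the diamond operators.  To avoid the quotient by `±1` all formulas
are written with products over `(ℤ/N)ˣ`, i.e. they are the SQUARES of the usual ones (harmless: the exponent `m` is odd).

* `nmF`, `incl_nmF_sq`  : `π^* (π_* f) ^ 2 = ∏_{d ∈ (ℤ/N)ˣ} ⟨d⟩ f`;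
* `push`, `pull_push`   : `2 π^* π_* = ∑_d ⟨d⟩`;   `push_pull` : `2 π_* π^* = φ(N)`;
* `push_gal`, `push_dia`.
-/

set_option autoImplicit false
set_option linter.unusedSectionVars false
set_option linter.style.haveILetI false

open AlgebraicCurve ModularCurve UpperHalfPlane CongruenceSubgroup
open scoped MatrixGroups

namespace Fermat.Agent.S43.R0

open Fermat.Agent.S24 Fermat.Agent.ES.An Fermat.Agent.S48 Fermat.Agent.S48.Coh1
open Fermat.Agent.ES (Qb GQ FF)
open Fermat.Agent.S48.An1 (X1Data Gpm)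

noncomputable section

variable {N : ℕ} [NeZero N] (hN : 5 ≤ N)

theorem finite_of_comp {K1 A B : Type*} [Field K1] [Field A] [Field B] [Algebra K1 B]
    (f : A →+* B) (g : K1 →+* A) (hg : f.comp g = algebraMap K1 B) [Module.Finite K1 B] :
    @Module.Finite A B _ _ f.toAlgebra.toModule := by
  letI := f.toAlgebra
  letI := g.toAlgebra
  have : IsScalarTower K1 A B :=
    IsScalarTower.of_algebraMap_eq fun a => (RingHom.congr_fun hg a).symm
  exact Module.Finite.of_restrictScalars_finite K1 A B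

/-- TASK S43/R0-Int : `F1(N)` is a finite extension of `F_N`. -/
theorem finite_along :
    @Module.Finite (FF N) (X1.F1Q N).F _ _ (algebraAlong (incl hN)).toModule := by
  obtain ⟨g, hg⟩ := exists_jHom hN
  exact @finite_of_comp _ _ _ _ _ _ _ (incl hN).toRingHom g hg (DD hN).B.fin

/-- `π_*` on the function fields: the norm along `π^*`. -/
def nmF : (X1.F1Q N).F →* FF N :=
  letI := algebraAlong (incl hN)
  Algebra.norm (FF N)

theorem prod_comp_hom_eq {G H M : Type*} [Group G] [Fintype G] [Group H] [Fintype H] [CommMonoid M]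
    (ρ : G →* H) (hρ : Function.Surjective ρ) (F : H → M) :
    ∏ g, F (ρ g) = ∏ h, F h ^ Nat.card ρ.ker := by
  classical
  rw [← Fintype.prod_fiberwise' (fun g => ρ g) F]
  refine Finset.prod_congr rfl fun h _ => ?_
  rw [Finset.prod_const, Finset.card_univ]
  congr 1
  obtain ⟨g0, rfl⟩ := hρ h
  rw [← Nat.card_eq_fintype_card]
  refine Nat.card_congr ⟨fun x => ⟨g0⁻¹ * x.1, ?_⟩, fun x => ⟨g0 * x.1, ?_⟩, ?_, ?_⟩
  · rw [MonoidHom.mem_ker, map_mul, map_inv, x.2, inv_mul_cancel]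
  · rw [map_mul, MonoidHom.mem_ker.1 x.2, mul_one]
  · intro x; simp
  · intro x; simp

/-- Artin: if the fixed field of the finite group `ρ(G)` of automorphisms of `L` is `K`, then
`N_{L/K}(y) ^ #ker ρ = ∏_g ρ(g) y`. -/
theorem algebraMap_norm_pow_card_ker {k K L G : Type*} [CommRing k] [Field K] [Field L]
    [Algebra k L] [Algebra K L] [Group G] [Fintype G]
    (ρ : G →* (L ≃ₐ[k] L))
    (h1 : ∀ g x, ρ g (algebraMap K L x) = algebraMap K L x)
    (h2 : ∀ y, (∀ g, ρ g y = y) → ∃ x, algebraMap K L x = y) (y : L) :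
    algebraMap K L (Algebra.norm K y) ^ Nat.card ρ.ker = ∏ g, ρ g y := by
  classical
  haveI : Finite ρ.range := inferInstance
  haveI : Fintype ρ.range := Fintype.ofFinite _
  haveI hG : IsGaloisGroup ρ.range K L :=
    { faithful := inferInstance
      commutes := ⟨by
        rintro ⟨_, g, rfl⟩ a b
        show ρ g (a • b) = a • ρ g b
        rw [Algebra.smul_def, Algebra.smul_def, map_mul, h1]⟩
      isInvariant := ⟨fun b hb => h2 b fun g => hb ⟨ρ g, g, rfl⟩⟩ }
  haveI : IsGalois K L := IsGaloisGroup.isGalois ρ.range K L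
  haveI : FiniteDimensional K L := IsGaloisGroup.finiteDimensional ρ.range K L
  rw [Algebra.norm_eq_prod_automorphisms]
  have h3 : ∏ σ : Gal(L/K), σ y = ∏ h : ρ.range, (h : L ≃ₐ[k] L) y := by
    refine (Fintype.prod_equiv (IsGaloisGroup.mulEquivAlgEquiv ρ.range K L).toEquiv _ _ ?_).symm
    intro h
    rfl
  rw [h3, ← Finset.prod_pow]
  have h4 := prod_comp_hom_eq ρ.rangeRestrict ρ.rangeRestrict_surjective
    (fun h : ρ.range => (h : L ≃ₐ[k] L) y)
  rw [MonoidHom.ker_rangeRestrict] at h4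
  rw [← h4]
  rfl

theorem sig_mem_Gpm_iff (d : (ZMod N)ˣ) :
    ((sig N d : Gamma0 N) : SL(2, ℤ)) ∈ Gpm N ↔ d = 1 ∨ d = -1 := by
  have h11 : ((((sig N d : Gamma0 N) : SL(2, ℤ)) 1 1 : ℤ) : ZMod N) = d := Gamma0Map_sig N d
  have h10 : ((((sig N d : Gamma0 N) : SL(2, ℤ)) 1 0 : ℤ) : ZMod N) = 0 := Gamma0_mem.mp (sig N d).2
  have hdet : ((((sig N d : Gamma0 N) : SL(2, ℤ)) 0 0 : ℤ) : ZMod N)
      * ((((sig N d : Gamma0 N) : SL(2, ℤ)) 1 1 : ℤ) : ZMod N) = 1 := by
    have h := Matrix.det_fin_two ((sig N d : Gamma0 N) : SL(2, ℤ)).1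
    rw [((sig N d : Gamma0 N) : SL(2, ℤ)).2] at h
    have h' := congrArg (Int.cast : ℤ → ZMod N) h
    push_cast at h'
    rw [h10, mul_zero, sub_zero] at h'
    exact h'.symm
  rw [An1.mem_Gpm, Gamma1_mem, Gamma1_mem]
  constructor
  · rintro (⟨-, h, -⟩ | ⟨-, h, -⟩)
    · exact Or.inl (Units.ext (h11.symm.trans h))
    · refine Or.inr (Units.ext ?_)
      have h2 : ((-((sig N d : Gamma0 N) : SL(2, ℤ))) 1 1 : ℤ)
          = -(((sig N d : Gamma0 N) : SL(2, ℤ)) 1 1 : ℤ) := by simp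
      rw [h2, Int.cast_neg, h11] at h
      rw [Units.val_neg, Units.val_one, ← h, neg_neg]
  · rintro (rfl | rfl)
    · left
      rw [h11, Units.val_one, mul_one] at hdet
      exact ⟨hdet, h11, h10⟩
    · right
      rw [h11, Units.val_neg, Units.val_one, mul_neg, mul_one] at hdet
      have h2 : ∀ i j, ((-((sig N (-1) : Gamma0 N) : SL(2, ℤ))) i j : ℤ)
          = -(((sig N (-1) : Gamma0 N) : SL(2, ℤ)) i j : ℤ) := by intro i j; simp
      rw [h2, h2, h2, Int.cast_neg, Int.cast_neg, Int.cast_neg, h11, h10]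
      exact ⟨hdet, by simp, by simp⟩

theorem dia_eq_one_iff (d : (ZMod N)ˣ) : An1.dia (DD hN) d = 1 ↔ d = 1 ∨ d = -1 := by
  rw [← sig_mem_Gpm_iff]
  constructor
  · intro h
    refine (DD hN).B.sep _ fun f => ?_
    have h1 := An1.φ_dia (DD hN) d f
    rw [h, AlgEquiv.one_apply] at h1
    exact h1.symm
  · intro h
    refine AlgEquiv.ext fun f => (DD hN).φ_injective ?_
    rw [An1.φ_dia, AlgEquiv.one_apply]
    exact (DD hN).B.inv ⟨_, h⟩ f

include hN in
theorem one_ne_neg_one_units : (1 : (ZMod N)ˣ) ≠ -1 := by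
  intro h
  have h1 : (1 : ZMod N) = -1 := by
    have := congrArg (fun u : (ZMod N)ˣ => (u : ZMod N)) h
    simpa using this
  have h2 : ((2 : ℕ) : ZMod N) = 0 := by
    have : (1 : ZMod N) + 1 = 0 := by nth_rewrite 1 [h1]; ring
    push_cast
    rw [← this]; norm_num
  have h3 := (ZMod.natCast_eq_zero_iff 2 N).1 h2
  have := Nat.le_of_dvd (by norm_num) h3
  omega

theorem card_ker_dia : Nat.card (An1.dia (DD hN)).ker = 2 := by
  rw [Nat.card_eq_two_iff]
  refine ⟨⟨1, one_mem _⟩, ⟨-1, (MonoidHom.mem_ker).2 ((dia_eq_one_iff hN _).2 (Or.inr rfl))⟩, ?_, ?_⟩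
  · intro h
    exact one_ne_neg_one_units hN (congrArg Subtype.val h)
  · ext ⟨x, hx⟩
    simp only [Set.mem_insert_iff, Set.mem_singleton_iff, Set.mem_univ, iff_true, Subtype.mk.injEq]
    exact (dia_eq_one_iff hN x).1 (MonoidHom.mem_ker.1 hx)

/-- TASK S43/R0-Gal : `π^* π_* f` squared is the product of all the diamond translates of `f`.
[`H := (An1.dia (DD hN)).range` is a finite group of automorphisms of `F1(N)`, its fixed field is the range of `incl hN`
(`dia_incl`, `mem_range_incl`); Artin: `IsGalois`, `FixedPoints.toAlgAutMulEquiv` / `FixedPoints.toAlgHom_bijective`,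
`Algebra.norm_eq_prod_automorphisms`;  the kernel of `dia` is `{±1}`: `dia d = 1 ↔ d = 1 ∨ d = -1`
(`⇐`: `-sig N d`, `An1.Model.inv` for `Gpm N`; `⇒`: `(DD hN).B.sep`), and `1 ≠ -1` in `(ℤ/N)ˣ` as `N ≥ 5`; so each
automorphism is counted twice.] -/
theorem incl_nmF_sq (f : (X1.F1Q N).F) :
    incl hN (nmF hN f) ^ 2 = ∏ d : (ZMod N)ˣ, An1.dia (DD hN) d f := by
  have h := @algebraMap_norm_pow_card_ker Qb (FF N) (X1.F1Q N).F (ZMod N)ˣ inferInstance inferInstance
    inferInstance inferInstance (algebraAlong (incl hN)) inferInstance inferInstance (An1.dia (DD hN))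
    (fun d x => dia_incl hN d x) (fun y hy => mem_range_incl hN y hy) f
  rw [card_ker_dia hN] at h
  exact h

/-- TASK S43/R0-Gal : the degree of `π` is `φ(N) / 2`. (`Algebra.norm_algebraMap`; apply `incl_nmF_sq` to `incl hN g`,
`dia_incl`, `ZMod.card_units_eq_totient`, `incl_injective`.) -/
theorem nmF_incl_sq (g : FF N) : nmF hN (incl hN g) ^ 2 = g ^ N.totient := by
  apply incl_injective hN
  rw [map_pow, incl_nmF_sq, map_pow, Finset.prod_congr rfl fun d _ => dia_incl hN d g,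
    Finset.prod_const, Finset.card_univ, ZMod.card_units_eq_totient]

theorem nmF_ne_zero {f : (X1.F1Q N).F} (hf : f ≠ 0) : nmF hN f ≠ 0 := by
  intro h
  have h1 : nmF hN f * nmF hN f⁻¹ = 1 := by rw [← map_mul, mul_inv_cancel₀ hf, map_one]
  rw [h, zero_mul] at h1
  exact zero_ne_one h1

/-- generic: the norm along `φ` commutes with a compatible pair of ring automorphisms. -/
theorem NmGal_norm_along_equiv {K F F' : Type*} [Field K] [Field F] [Field F'] [Algebra K F]
    [Algebra K F'] (φ : F →ₐ[K] F') (e₁ : F ≃+* F) (e₂ : F' ≃+* F')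
    (h : ∀ x, e₂ (φ x) = φ (e₁ x)) (f : F') :
    e₁ ((letI := algebraAlong φ; Algebra.norm F : F' →* F) f)
      = (letI := algebraAlong φ; Algebra.norm F : F' →* F) (e₂ f) := by
  letI := algebraAlong φ
  have he : RingHom.comp (algebraMap F F') (e₁ : F →+* F)
      = RingHom.comp (e₂ : F' →+* F') (algebraMap F F') := by
    ext x
    exact (h x).symm
  have h1 := Algebra.norm_eq_of_equiv_equiv e₁ e₂ he f
  show e₁ (Algebra.norm F f) = Algebra.norm F (e₂ f)
  rw [h1, RingEquiv.apply_symm_apply]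

/-- generic: the norm along `φ` is invariant under the automorphisms fixing the image of `φ`. -/
theorem NmGal_norm_along_algEquiv {K F F' : Type*} [Field K] [Field F] [Field F'] [Algebra K F]
    [Algebra K F'] (φ : F →ₐ[K] F') (e : F' ≃ₐ[K] F') (h : ∀ x, e (φ x) = φ x) (f : F') :
    (letI := algebraAlong φ; Algebra.norm F : F' →* F) (e f)
      = (letI := algebraAlong φ; Algebra.norm F : F' →* F) f :=
  (NmGal_norm_along_equiv φ (RingEquiv.refl F) e.toRingEquiv (fun x => h x) f).symm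

/-- TASK S43/R0-NmGal : the norm commutes with `G_ℚ` (`Algebra.norm_eq_of_equiv_equiv` with `ES.galF N σ`,
`(X1.F1Q N).galF σ`, compatibility = `galF_incl`). -/
theorem galF_nmF (σ : GQ) (f : (X1.F1Q N).F) :
    ES.galF N σ (nmF hN f) = nmF hN ((X1.F1Q N).galF σ f) := by
  unfold nmF
  exact NmGal_norm_along_equiv (incl hN) (ES.galF N σ) ((X1.F1Q N).galF σ)
    (fun x => galF_incl hN σ x) f

/-- TASK S43/R0-NmGal : the norm is invariant under the diamond operators (`Algebra.norm_eq_of_algEquiv`, the diamond operator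
is an `F_N`-algebra automorphism by `dia_incl`). -/
theorem nmF_dia (d : (ZMod N)ˣ) (f : (X1.F1Q N).F) : nmF hN (An1.dia (DD hN) d f) = nmF hN f := by
  unfold nmF
  exact NmGal_norm_along_algEquiv (incl hN) (An1.dia (DD hN) d) (fun x => dia_incl hN d x) f

/-! ### Kummer modules -/

/-- `π_*` on units. -/
def nmU : (X1.F1Q N).Fˣ →* (FF N)ˣ := Units.map (nmF hN)

@[simp]
theorem coe_nmU (f : (X1.F1Q N).Fˣ) : ((nmU hN f : (FF N)ˣ) : FF N) = nmF hN f := rfl

theorem nmU_mem_Dm {m : ℕ} {f : (X1.F1Q N).Fˣ} (hf : f ∈ B1.Dm Qb (X1.F1Q N).F m) :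
    nmU hN f ∈ ES.Dm N m := by
  intro P
  letI : Algebra (FF N) (X1.F1Q N).F := algebraAlong (incl hN)
  haveI : IsScalarTower Qb (FF N) (X1.F1Q N).F := isScalarTower_along (incl hN)
  have hfin := finite_along hN
  exact @ES.dvd_ord_norm Qb (FF N) (X1.F1Q N).F inferInstance inferInstance inferInstance
    inferInstance inferInstance inferInstance inferInstance inferInstance hfin m
    (f : (X1.F1Q N).F) f.ne_zero hf P

/-- **the push-forward `π_*` on Kummer modules.** -/
def push (m : ℕ) : B1.Kum Qb (X1.F1Q N).F m →+ ES.Kum N m :=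
  MonoidHom.toAdditive (QuotientGroup.map _ _
    (((nmU hN).comp (B1.Dm Qb (X1.F1Q N).F m).subtype).codRestrict (ES.Dm N m)
      (fun f => nmU_mem_Dm hN f.2)) (by
      rintro ⟨f, hf⟩ hfP
      rw [Subgroup.mem_subgroupOf] at hfP
      obtain ⟨h, hh⟩ := hfP
      rw [Subgroup.mem_comap, Subgroup.mem_subgroupOf]
      refine ⟨nmU hN h, ?_⟩
      have hh' : h ^ m = f := hh
      show nmU hN h ^ m = nmU hN f
      rw [← map_pow, hh']))

theorem push_mk {m : ℕ} (f : B1.Dm Qb (X1.F1Q N).F m) :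
    push hN m (B1.Kum.mk f) = ES.Kum.mk ⟨nmU hN f, nmU_mem_Dm hN f.2⟩ := rfl

theorem push_gal {m : ℕ} (σ : GQ) (x : B1.Kum Qb (X1.F1Q N).F m) :
    push hN m (B1.galKum (X1.F1Q N) m σ x) = ES.galKum N m σ (push hN m x) := by
  obtain ⟨f, rfl⟩ := B1.Kum.mk_surjective x
  rw [B1.galKum_mk, push_mk, push_mk, ES.galKum_mk]
  exact congrArg ES.Kum.mk (Subtype.ext (Units.ext (galF_nmF hN σ _).symm))

theorem push_dia {m : ℕ} (d : (ZMod N)ˣ) (x : B1.Kum Qb (X1.F1Q N).F m) :
    push hN m (B1.diaKum (HD hN) m d x) = push hN m x := by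
  obtain ⟨f, rfl⟩ := B1.Kum.mk_surjective x
  rw [B1.diaKum_mk, push_mk, push_mk]
  exact congrArg ES.Kum.mk (Subtype.ext (Units.ext (nmF_dia hN d _)))

/-- TASK S43/R0-PP : `2 π^* π_* = ∑_d ⟨d⟩` (from `incl_nmF_sq`; `B1.Kum.mk_pow`, and
`∑ d, diaKum d (mk f) = mk (∏ d, ...)` by `map_sum`-type induction or `Finset.induction`). -/
theorem pull_push {m : ℕ} (x : B1.Kum Qb (X1.F1Q N).F m) :
    2 • pull hN m (push hN m x) = ∑ d : (ZMod N)ˣ, B1.diaKum (HD hN) m d x := by
  classical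
  obtain ⟨f, rfl⟩ := B1.Kum.mk_surjective x
  have hsum : ∀ s : Finset (ZMod N)ˣ, ∑ d ∈ s, B1.diaKum (HD hN) m d (B1.Kum.mk f)
      = B1.Kum.mk (∏ d ∈ s,
          (⟨B1.semiU (SemilinearAut.ofAlgAut ((HD hN).dia d)) f, B1.semiU_mem_Dm _ f.2⟩ :
            B1.Dm Qb (X1.F1Q N).F m)) := by
    intro s
    induction s using Finset.induction_on with
    | empty => rw [Finset.sum_empty, Finset.prod_empty, B1.Kum.mk_one]
    | insert a s ha ih =>
      rw [Finset.sum_insert ha, Finset.prod_insert ha, B1.Kum.mk_mul, ih, B1.diaKum_mk]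
  rw [hsum, push_mk, pull_mk, ← B1.Kum.mk_pow]
  refine congrArg B1.Kum.mk (Subtype.ext (Units.ext ?_))
  rw [SubgroupClass.coe_pow, Units.val_pow_eq_pow_val, coe_inclU, coe_nmU, incl_nmF_sq,
    Subgroup.val_finsetProd, Units.coe_prod]
  exact Finset.prod_congr rfl fun d _ => rfl

/-- `2 π_* π^* = φ(N)`. -/
theorem push_pull {m : ℕ} (x : ES.Kum N m) :
    2 • push hN m (pull hN m x) = N.totient • x := by
  obtain ⟨f, rfl⟩ := ES.Kum.mk_surjective x
  rw [pull_mk, push_mk, ← ES.Kum.mk_pow, ← ES.Kum.mk_pow]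
  exact congrArg ES.Kum.mk (Subtype.ext (Units.ext (nmF_incl_sq hN _)))

end

end Fermat.Agent.S43.R0
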