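import Fermat.Agent.S43.R0.Push
import Fermat.Agent.S43.CH.F1
import Fermat.Agent.Crux.Main
import Fermat.Agent.ES.B.Output
import Fermat.Agent.S54.Frobenius

/-!
# S43 / R0 : Hecke equivariance of `π^*`, `π_*` and `U_q`

Exponent `p ^ k`, `ℓ` a prime with `ℓ ∤ N`, `ℓ ≠ p`.  On both Kummer modules `T_ℓ` is given by the Eichler-Shimura formula
`T_ℓ = φ + ℓ ⟨ℓ⟩ φ⁻¹` (`φ` a Frobenius element at `ℓ`), and `π^*`, `π_*`, `U_q` commute with `G_ℚ` and the diamond operators.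

* `ES_heckeKum_eq`  : `T_ℓ = φ + ℓ φ⁻¹` on `ES.Kum N m`;
* `pull_heckeKum`   : `π^* T_ℓ = T_ℓ π^*`;
* `push_heckeKum`   : `π_* T_ℓ = T_ℓ π_*`;
* `uKum_heckeKum`   : `U_q T_ℓ = T_ℓ U_q`.
-/

set_option autoImplicit false
set_option linter.unusedSectionVars false

open AlgebraicCurve ModularCurve

namespace Fermat.Agent.S43.R0

open Fermat.Agent.ES (Qb GQ FF)
open Fermat.Agent.S48

noncomputable section

variable {N : ℕ} [NeZero N]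

/-- `T_ℓ = φ + ℓ φ⁻¹` on `ES.Kum N m`. -/
theorem ES_heckeKum_eq {m ℓ : ℕ} [NeZero ℓ] (hm : m ≠ 0) (hℓ : ℓ.Prime) (hℓN : ¬ ℓ ∣ N)
    (hℓm : ¬ ℓ ∣ m) (A : ValuationSubring Qb) (hA : A.LiesOverPrime ℓ) (φ : GQ)
    (hφ : A.IsFrobeniusAt φ ℓ) (y : ES.Kum N m) :
    ES.heckeKum N ℓ hℓ hℓN m y = ES.galKum N m φ y + ℓ • ES.galKum N m φ⁻¹ y := by
  have h := ES.eichlerShimura_Kum hm hℓ hℓN (Crux.crux N ℓ m hℓ hℓN hℓm) A hA φ hφ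
    (ES.galKum N m φ⁻¹ y)
  have h1 : ES.galKum N m φ (ES.galKum N m φ⁻¹ y) = y := by
    rw [← ES.galKum_mul, mul_inv_cancel, ES.galKum_one]
  rw [h1] at h
  have h2 : ES.galKum N m φ y + ℓ • ES.galKum N m φ⁻¹ y - ES.heckeKum N ℓ hℓ hℓN m y = 0 := by
    rw [← h]; abel
  exact (sub_eq_zero.mp h2).symm

variable (hN : 5 ≤ N)

theorem HD_eq_HH : HD hN = CH.HH N hN := rfl

/-- `T_ℓ` preserves `n ∣ div` on `F1(N)`. -/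
theorem preservesDm_HD {n : ℕ} (hn : 0 < n) : (HD hN).PreservesDm n :=
  CH.preservesDm_F1 N hN hn

/-- `T_ℓ = φ + ℓ ⟨ℓ⟩ φ⁻¹` on `KK`. -/
theorem KK_heckeKum_eq {p : ℕ} (hp : p.Prime) (k : ℕ) (P : ES.D.GoodPrime N) (hPp : P.1 ≠ p)
    (A : ValuationSubring Qb) (hA : A.LiesOverPrime P.1) (φ : GQ) (hφ : A.IsFrobeniusAt φ P.1)
    (y : B1.Kum Qb (X1.F1Q N).F (p ^ k)) :
    B1.heckeKum (HD hN) (preservesDm_HD hN (pow_pos hp.pos k)) P y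
      = B1.galKum (X1.F1Q N) (p ^ k) φ y
        + P.1 • B1.diaKum (HD hN) (p ^ k) (B1.gpUnit P) (B1.galKum (X1.F1Q N) (p ^ k) φ⁻¹ y) :=
  B1.heckeKum_eq (HD hN) _ (pow_pos hp.pos k).ne' P
    (CH.crux1_F1 N hN hp k P.1 P.2.1 P.2.2 hPp) A hA φ hφ y

/-- **`π^* T_ℓ = T_ℓ π^*`.** -/
theorem pull_heckeKum {p : ℕ} (hp : p.Prime) (k : ℕ) (P : ES.D.GoodPrime N) (hPp : P.1 ≠ p)
    [NeZero P.1] (x : ES.Kum N (p ^ k)) :
    pull hN (p ^ k) (ES.heckeKum N P.1 P.2.1 P.2.2 (p ^ k) x)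
      = B1.heckeKum (HD hN) (preservesDm_HD hN (pow_pos hp.pos k)) P (pull hN (p ^ k) x) := by
  obtain ⟨A, hA, φ, hφ⟩ := S54.exists_frob P.1 P.2.1
  have hPm : ¬ P.1 ∣ p ^ k := fun h =>
    hPp ((Nat.prime_dvd_prime_iff_eq P.2.1 hp).1 (P.2.1.dvd_of_dvd_pow h))
  rw [ES_heckeKum_eq (pow_pos hp.pos k).ne' P.2.1 P.2.2 hPm A hA φ hφ,
    KK_heckeKum_eq hN hp k P hPp A hA φ hφ, map_add, map_nsmul, pull_gal, pull_gal,
    ← pull_gal hN φ⁻¹ x, dia_pull]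

/-- **`π_* T_ℓ = T_ℓ π_*`.** -/
theorem push_heckeKum {p : ℕ} (hp : p.Prime) (k : ℕ) (P : ES.D.GoodPrime N) (hPp : P.1 ≠ p)
    [NeZero P.1] (y : B1.Kum Qb (X1.F1Q N).F (p ^ k)) :
    push hN (p ^ k) (B1.heckeKum (HD hN) (preservesDm_HD hN (pow_pos hp.pos k)) P y)
      = ES.heckeKum N P.1 P.2.1 P.2.2 (p ^ k) (push hN (p ^ k) y) := by
  obtain ⟨A, hA, φ, hφ⟩ := S54.exists_frob P.1 P.2.1
  have hPm : ¬ P.1 ∣ p ^ k := fun h =>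
    hPp ((Nat.prime_dvd_prime_iff_eq P.2.1 hp).1 (P.2.1.dvd_of_dvd_pow h))
  rw [ES_heckeKum_eq (pow_pos hp.pos k).ne' P.2.1 P.2.2 hPm A hA φ hφ,
    KK_heckeKum_eq hN hp k P hPp A hA φ hφ, map_add, map_nsmul, push_dia, push_gal, push_gal]

/-- **`U_q T_ℓ = T_ℓ U_q`.** -/
theorem uKum_heckeKum {q : ℕ} [Fact q.Prime] (hq : q ∣ N) {p : ℕ} (hp : p.Prime) (k : ℕ)
    (P : ES.D.GoodPrime N) (hPp : P.1 ≠ p) (y : B1.Kum Qb (X1.F1Q N).F (p ^ k)) :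
    uKum hN hq (pow_pos hp.pos k)
        (B1.heckeKum (HD hN) (preservesDm_HD hN (pow_pos hp.pos k)) P y)
      = B1.heckeKum (HD hN) (preservesDm_HD hN (pow_pos hp.pos k)) P
          (uKum hN hq (pow_pos hp.pos k) y) := by
  obtain ⟨A, hA, φ, hφ⟩ := S54.exists_frob P.1 P.2.1
  rw [KK_heckeKum_eq hN hp k P hPp A hA φ hφ, KK_heckeKum_eq hN hp k P hPp A hA φ hφ, map_add,
    map_nsmul, galKum_uKum, galKum_uKum, diaKum_uKum]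

end

end Fermat.Agent.S43.R0
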