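import Fermat.Agent.S43.R0.Corr
import Fermat.Agent.S48.An1.Out

/-!
# S43 / R0 : the operator `U_q` (`q ∣ N`, `q` prime) on `F1(N)` and on its Kummer modules

`U_q f = ∏_{z^q = 1} f(z t^{1/q}) = ES.normSer q f`  (multiplicative `U_q`).

* `normSer_mem`   : `U_q` preserves `F1(N) = (X1.F1Q N).E`;
* `uF`, `uU`      : `U_q` on the field / on units;  `φ_uF` : analytic description `∏_j u((τ + j)/q)`;
* `uU_mem_Dm`     : `U_q` preserves `m ∣ div`;
* `uKum`          : `U_q` on `B1.Kum Qb (F1Q N).F m`;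
* `galKum_uKum`, `diaKum_uKum` : `U_q` commutes with `G_ℚ` and with the diamond operators.
-/

set_option autoImplicit false
set_option linter.unusedSectionVars false

open AlgebraicCurve ModularCurve UpperHalfPlane CongruenceSubgroup
open scoped MatrixGroups

namespace Fermat.Agent.S43.R0

open Fermat.Agent.S24 Fermat.Agent.ES Fermat.Agent.ES.An Fermat.Agent.S48 Fermat.Agent.S48.Coh1
open Fermat.Agent.S48.An1 (X1Data merOp repP Gpm)
open Fermat.Agent.S48.B1 (galKum diaKum semiU)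

noncomputable section

variable {N : ℕ} [NeZero N] {q : ℕ} [Fact q.Prime] (hq : q ∣ N)

/-- the analytic `U_q`. -/
def merU (u : Mer) : Mer := merOp (U1 N q hq) (det_U1_pos hq) u

/-- `(1 j; 0 q)` in `GL₂(ℝ)⁺`. -/
def matQ (q : ℕ) (j : ZMod q) : GLp :=
  ⟨ModularForm.heckeMatrix q j.val, ModularForm.det_heckeMatrix_pos q j.val⟩

theorem merU_eq (u : Mer) : merU hq u = ∏ j : ZMod q, cmp (matQ q j) u := rfl

theorem exists_U1_rat (x : (U1 N q hq).X) :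
    ∃ α : GL (Fin 2) ℚ, (U1 N q hq).rep x = Matrix.GeneralLinearGroup.map (Rat.castHom ℝ) α :=
  P2MW.S_ModularFormClass_isBoundedAt_heckeU.ModularForm.S06W2.exists_heckeMatrix_eq_map q _

theorem isMFr_merU {u : Mer} (hu : X1.IsMFr (Gpm N) u) : X1.IsMFr (Gpm N) (merU hq u) :=
  An1.IsMFr.merOp (U1 N q hq) _ (exists_U1_rat hq) (An1.Gamma1_le_Gpm N) (An1.neg_one_mem_Gpm N)
    (fun _ h => h) hu

theorem hasLau_merU {u : Mer} {x : LaurentSeries ℂ} (hu : HasLau 1 u x) :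
    HasLau 1 (merU hq u) (normSer q x) := by
  have hq0 : q ≠ 0 := (Fact.out : q.Prime).ne_zero
  rw [merU_eq]
  exact An1.hasLau_prod_cmp' q (An1.diagP q) (matQ q)
    (fun τ => ModularForm.coe_heckeDiagMatrix_smul hq0 τ)
    (fun j τ => ModularForm.coe_heckeMatrix_smul hq0 j.val τ) hu

/-- `merU` commutes with `Γ₀(N)` on `Γ₁(N)`-invariant functions. -/
theorem cmp_merU {u : Mer} (hu : ∀ γ : Gamma1 N, cmp (slp (γ : SL(2, ℤ))) u = u) (g : Gamma0 N) :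
    cmp (slp (g : SL(2, ℤ))) (merU hq u) = merU hq (cmp (slp (g : SL(2, ℤ))) u) := by
  have h0 : ∀ v, merU hq v = merOp (U0 N q hq) (det_U0_pos hq) v := fun _ => rfl
  rw [h0, h0]
  refine (An1.cmp_merOp (U0 N q hq) (det_U0_pos hq) u g).trans ?_
  have h1 : ∀ x : (U0 N q hq).X, cmp (slp ((U0 N q hq).c g x : SL(2, ℤ))) u
      = cmp (slp (g : SL(2, ℤ))) u :=
    fun x => An1.cmp_eq_of_Gamma0Map_eq hu (Gamma0Map_U0_c hq g x)
  rw [Finset.prod_congr rfl fun x _ => by rw [h1 x]]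
  exact Equiv.prod_comp ((U0 N q hq).perm g)
    (fun x => cmp (repP (U0 N q hq) (det_U0_pos hq) x) (cmp (slp (g : SL(2, ℤ))) u))

theorem coeffMap_iotaC_normSer (x : LaurentSeries Qb) :
    coeffMap iotaC (normSer q x) = normSer q (coeffMap iotaC x) :=
  B1.coeffMap_normSer _ q (restrictRootsOfUnity_iotaC_bijective q) x

variable (D : X1Data N)

/-- **`U_q` preserves `F1(N)`**, and is given by `merU` on `Mer`. -/
theorem exists_u (f : (X1.F1Q N).F) :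
    ∃ h : normSer q (f : LaurentSeries Qb) ∈ (X1.F1Q N).E, D.φ ⟨_, h⟩ = merU hq (D.φ f) := by
  have hL := hasLau_merU hq (D.hasLau f)
  rw [← coeffMap_iotaC_normSer] at hL
  exact D.exists_of_isMFr _ _ (isMFr_merU hq (D.isMFr f)) hL

include D hq in
theorem normSer_mem (f : (X1.F1Q N).F) : normSer q (f : LaurentSeries Qb) ∈ (X1.F1Q N).E :=
  (exists_u hq D f).1

/-- **`U_q` on `F1(N)`.** -/
def uF : (X1.F1Q N).F →* (X1.F1Q N).F where
  toFun f := ⟨_, normSer_mem hq D f⟩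
  map_one' := Subtype.ext (by
    show normSer q ((1 : (X1.F1Q N).F) : LaurentSeries Qb) = 1
    have h := B1.normSer_algebraMap q (1 : Qb)
    rwa [one_pow, map_one] at h)
  map_mul' f g := Subtype.ext (by
    obtain ⟨ζ, hζ⟩ := exists_primitiveRoot_Qb q
    exact normSer_mul q hζ _ _)

@[simp]
theorem coe_uF (f : (X1.F1Q N).F) :
    ((uF hq D f : (X1.F1Q N).F) : LaurentSeries Qb) = normSer q (f : LaurentSeries Qb) := rfl

theorem φ_uF (f : (X1.F1Q N).F) : D.φ (uF hq D f) = merU hq (D.φ f) := (exists_u hq D f).2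

/-- `U_q` on units. -/
def uU : (X1.F1Q N).Fˣ →* (X1.F1Q N).Fˣ := Units.map (uF hq D)

@[simp]
theorem coe_uU (f : (X1.F1Q N).Fˣ) : ((uU hq D f : (X1.F1Q N).Fˣ) : (X1.F1Q N).F) = uF hq D f := rfl

theorem galF_uF (σ : GQ) (f : (X1.F1Q N).F) :
    (X1.F1Q N).galF σ (uF hq D f) = uF hq D ((X1.F1Q N).galF σ f) :=
  Subtype.ext (B1.coeffMap_gal_normSer σ q _)

theorem dia_uF (d : (ZMod N)ˣ) (f : (X1.F1Q N).F) :
    An1.dia D d (uF hq D f) = uF hq D (An1.dia D d f) := by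
  apply D.φ_injective
  rw [An1.φ_dia, φ_uF, φ_uF, An1.φ_dia]
  exact cmp_merU hq (fun γ => D.inv1 γ f) (sig N d)

end

/-! ### the concrete data, `N ≥ 5` -/

noncomputable section

variable {N : ℕ} [NeZero N] (hN : 5 ≤ N) {q : ℕ} [Fact q.Prime] (hq : q ∣ N)

/-- THE analytic data of `F1(N)`. -/
abbrev DD : X1Data N := X1.x1Data N hN

/-- THE Hecke data of `F1(N)`. -/
abbrev HD : B1.HeckeData (X1.F1Q N) N := An1.hData (DD hN)

/-- (K5) for `U_q`. -/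
theorem hasChar1_u {l : ℕ} {f : (X1.F1Q N).F} {χ : Gamma1 N →* ℂˣ}
    (h : An1.HasChar1 hN l f χ) :
    An1.HasChar1 hN l (uF hq (DD hN) f) ((U1 N q hq).opMul χ) := by
  rw [An1.hasChar1_iff] at h ⊢
  have h1 := An1.exists_root_merOp (U1 N q hq) (det_U1_pos hq) h
  have h2 := φ_uF hq (DD hN) f
  change (X1.modelB1 N hN).φ _ = merOp _ _ ((X1.modelB1 N hN).φ f) at h2
  rwa [← h2] at h1

/-- **`U_q` preserves `m ∣ div`.** -/
theorem uU_mem_Dm {m : ℕ} (hm : 0 < m) {f : (X1.F1Q N).Fˣ} (hf : f ∈ B1.Dm Qb (X1.F1Q N).F m) :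
    uU hq (DD hN) f ∈ B1.Dm Qb (X1.F1Q N).F m := by
  obtain ⟨χ, hχ, -⟩ := An1.exists_hasChar1 hN hm _ (Units.ne_zero f) hf
  exact An1.HasChar1.divBy hN hm _ (Units.ne_zero (uU hq (DD hN) f)) _ (hasChar1_u hN hq hχ)
    ((An1.HasChar1.isGood hN hm _ (Units.ne_zero f) hf χ hχ).opMul _)

/-- **`U_q` on the Kummer module of `F1(N)`.** -/
def uKum {m : ℕ} (hm : 0 < m) : B1.Kum Qb (X1.F1Q N).F m →+ B1.Kum Qb (X1.F1Q N).F m :=
  B1.Kum.map (uU hq (DD hN)) (fun _ hf => uU_mem_Dm hN hq hm hf)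

theorem uKum_mk {m : ℕ} (hm : 0 < m) (f : B1.Dm Qb (X1.F1Q N).F m) :
    uKum hN hq hm (B1.Kum.mk f) = B1.Kum.mk ⟨uU hq (DD hN) f, uU_mem_Dm hN hq hm f.2⟩ :=
  B1.Kum.map_mk _ _ f

/-- `U_q` commutes with the Galois action. -/
theorem galKum_uKum {m : ℕ} (hm : 0 < m) (σ : GQ) (x : B1.Kum Qb (X1.F1Q N).F m) :
    galKum (X1.F1Q N) m σ (uKum hN hq hm x) = uKum hN hq hm (galKum (X1.F1Q N) m σ x) := by
  obtain ⟨f, rfl⟩ := B1.Kum.mk_surjective x
  rw [uKum_mk, B1.galKum_mk, B1.galKum_mk, uKum_mk]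
  exact congrArg B1.Kum.mk (Subtype.ext (Units.ext (galF_uF hq (DD hN) σ _)))

/-- `U_q` commutes with the diamond operators. -/
theorem diaKum_uKum {m : ℕ} (hm : 0 < m) (d : (ZMod N)ˣ) (x : B1.Kum Qb (X1.F1Q N).F m) :
    diaKum (HD hN) m d (uKum hN hq hm x) = uKum hN hq hm (diaKum (HD hN) m d x) := by
  obtain ⟨f, rfl⟩ := B1.Kum.mk_surjective x
  rw [uKum_mk, B1.diaKum_mk, B1.diaKum_mk, uKum_mk]
  exact congrArg B1.Kum.mk (Subtype.ext (Units.ext (dia_uF hq (DD hN) d _)))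

end

end Fermat.Agent.S43.R0
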