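import Fermat.Agent.S48.Coh1.Gamma1

/-!
# S43 / R0 : the correspondence `U_q` (`q ∣ N`) on `Γ₀(N)` and on `Γ₁(N)`

Index set `ℤ/q`, representatives `(1 j; 0 q) = heckeMatrix q j.val`:

  `(1 j; 0 q) (a b; c d) = (a + j c, e; q c, d - c j') (1 j'; 0 q)`,   `j' = d (b + d j) mod q`.

The cocycle preserves `Gamma0Map` (lower right entry mod `N`), so that `U_q` restricts to `Γ₁(N)` and commutes with the
diamond operators.
-/

set_option autoImplicit false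
set_option linter.unusedSectionVars false

open UpperHalfPlane ModularForm CongruenceSubgroup Matrix.SpecialLinearGroup
open scoped MatrixGroups ModularForm

namespace Fermat.Agent.S43.R0

open Fermat.Agent.S48.Coh1
open P2MW.S_ModularForm_heckeU_slash_eq_self_of_mem_Gamma0.ModularForm.HeckeSlashInvariance

noncomputable section

variable {N q : ℕ} [NeZero q] (hq : q ∣ N)

include hq in
theorem cast_one_zero (γ : Gamma0 N) : ((((γ : SL(2, ℤ)) 1 0 : ℤ)) : ZMod q) = 0 := by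
  have h : (N : ℤ) ∣ (γ : SL(2, ℤ)) 1 0 :=
    (ZMod.intCast_zmod_eq_zero_iff_dvd _ _).mp (Gamma0_mem.mp γ.2)
  exact (ZMod.intCast_zmod_eq_zero_iff_dvd _ _).mpr ((Int.natCast_dvd_natCast.mpr hq).trans h)

/-- the permutation `j ↦ d (b + d j)` of `ℤ/q`. -/
def uPerm (γ : Gamma0 N) : Equiv.Perm (ZMod q) := affinePerm (γ : SL(2, ℤ)) (cast_one_zero hq γ)

theorem uPerm_apply (γ : Gamma0 N) (j : ZMod q) :
    uPerm hq γ j = ((((γ : SL(2, ℤ)) 1 1 : ℤ)) : ZMod q)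
      * (((((γ : SL(2, ℤ)) 0 1 : ℤ)) : ZMod q) + ((((γ : SL(2, ℤ)) 1 1 : ℤ)) : ZMod q) * j) := rfl

theorem exists_uE (γ : Gamma0 N) (x : ZMod q) :
    ∃ e : ℤ, (γ : SL(2, ℤ)) 0 1 + x.val * (γ : SL(2, ℤ)) 1 1
      = (uPerm hq γ x).val * ((γ : SL(2, ℤ)) 0 0 + x.val * (γ : SL(2, ℤ)) 1 0) + q * e := by
  have hc0 := cast_one_zero hq γ
  obtain ⟨e, he⟩ : (q : ℤ) ∣ (γ : SL(2, ℤ)) 0 1 + x.val * (γ : SL(2, ℤ)) 1 1
      - (uPerm hq γ x).val * ((γ : SL(2, ℤ)) 0 0 + x.val * (γ : SL(2, ℤ)) 1 0) := by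
    rw [← ZMod.intCast_zmod_eq_zero_iff_dvd]
    push_cast
    rw [ZMod.natCast_zmod_val, ZMod.natCast_zmod_val, uPerm_apply]
    linear_combination (-(((((γ : SL(2, ℤ)) 0 1 : ℤ)) : ZMod q)
        + x * ((((γ : SL(2, ℤ)) 1 1 : ℤ)) : ZMod q))) *
      unit_of_apply_one_zero_eq_zero (γ : SL(2, ℤ)) hc0
      - (((((γ : SL(2, ℤ)) 1 1 : ℤ)) : ZMod q) * (((((γ : SL(2, ℤ)) 0 1 : ℤ)) : ZMod q)
        + ((((γ : SL(2, ℤ)) 1 1 : ℤ)) : ZMod q) * x) * x) * hc0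
  exact ⟨e, by linear_combination he⟩

/-- the upper right entry of the cocycle. -/
def uE (γ : Gamma0 N) (x : ZMod q) : ℤ := (exists_uE hq γ x).choose

theorem uE_spec (γ : Gamma0 N) (x : ZMod q) :
    (γ : SL(2, ℤ)) 0 1 + x.val * (γ : SL(2, ℤ)) 1 1
      = (uPerm hq γ x).val * ((γ : SL(2, ℤ)) 0 0 + x.val * (γ : SL(2, ℤ)) 1 0) + q * uE hq γ x :=
  (exists_uE hq γ x).choose_spec

/-- the cocycle of `U_q`, in `SL₂(ℤ)`. -/
def uS (γ : Gamma0 N) (x : ZMod q) : SL(2, ℤ) :=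
  ⟨!![(γ : SL(2, ℤ)) 0 0 + x.val * (γ : SL(2, ℤ)) 1 0, uE hq γ x;
      q * (γ : SL(2, ℤ)) 1 0, (γ : SL(2, ℤ)) 1 1 - (γ : SL(2, ℤ)) 1 0 * (uPerm hq γ x).val], by
    rw [Matrix.det_fin_two_of]
    linear_combination det_eq (γ : SL(2, ℤ)) + ((γ : SL(2, ℤ)) 1 0) * uE_spec hq γ x⟩

theorem uS_mem (γ : Gamma0 N) (x : ZMod q) : uS hq γ x ∈ Gamma0 N := by
  rw [Gamma0_mem]
  show (((q : ℤ) * (γ : SL(2, ℤ)) 1 0 : ℤ) : ZMod N) = 0
  push_cast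
  rw [Gamma0_mem.mp γ.2, mul_zero]

/-- the cocycle of `U_q`. -/
def uC (γ : Gamma0 N) (x : ZMod q) : Gamma0 N := ⟨uS hq γ x, uS_mem hq γ x⟩

theorem uC_spec (γ : Gamma0 N) (x : ZMod q) :
    heckeMatrix q x.val * mapGL ℝ (γ : SL(2, ℤ))
      = mapGL ℝ (uC hq γ x : SL(2, ℤ)) * heckeMatrix q (uPerm hq γ x).val := by
  have hp : q ≠ 0 := NeZero.ne q
  have he := congrArg (Int.cast : ℤ → ℝ) (uE_spec hq γ x)
  push_cast at he
  have h00 : (uC hq γ x : SL(2, ℤ)) 0 0 = (γ : SL(2, ℤ)) 0 0 + x.val * (γ : SL(2, ℤ)) 1 0 := rfl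
  have h01 : (uC hq γ x : SL(2, ℤ)) 0 1 = uE hq γ x := rfl
  have h10 : (uC hq γ x : SL(2, ℤ)) 1 0 = q * (γ : SL(2, ℤ)) 1 0 := rfl
  have h11 : (uC hq γ x : SL(2, ℤ)) 1 1
      = (γ : SL(2, ℤ)) 1 1 - (γ : SL(2, ℤ)) 1 0 * (uPerm hq γ x).val := rfl
  ext i j
  fin_cases i <;> fin_cases j <;>
    simp only [Matrix.GeneralLinearGroup.coe_mul, Matrix.mul_apply, Fin.sum_univ_two,
      val_heckeMatrix hp, mapGL_apply, h00, h01, h10, h11, Fin.zero_eta, Fin.mk_one, Fin.isValue,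
      Matrix.of_apply, Matrix.cons_val', Matrix.cons_val_zero, Matrix.cons_val_one,
      Matrix.cons_val_fin_one] <;> push_cast
  · ring
  · linear_combination he
  · ring
  · ring

theorem Gamma0Map_uC (γ : Gamma0 N) (x : ZMod q) : Gamma0Map N (uC hq γ x) = Gamma0Map N γ := by
  show ((((γ : SL(2, ℤ)) 1 1 - (γ : SL(2, ℤ)) 1 0 * (uPerm hq γ x).val : ℤ)) : ZMod N)
    = ((((γ : SL(2, ℤ)) 1 1 : ℤ)) : ZMod N)
  push_cast
  rw [Gamma0_mem.mp γ.2, zero_mul, sub_zero]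

theorem uPerm_mul (γ δ : Gamma0 N) (x : ZMod q) :
    uPerm hq (γ * δ) x = uPerm hq δ (uPerm hq γ x) := by
  have h1 := cast_one_zero hq γ
  have h2 := cast_one_zero hq δ
  have h3 := unit_of_apply_one_zero_eq_zero (γ : SL(2, ℤ)) h1
  rw [uPerm_apply, uPerm_apply, uPerm_apply]
  simp only [Subgroup.coe_mul, Matrix.SpecialLinearGroup.coe_mul, Matrix.mul_apply,
    Fin.sum_univ_two]
  push_cast
  rw [h1]
  linear_combination (((((δ : SL(2, ℤ)) 1 1 : ℤ)) : ZMod q) * ((((δ : SL(2, ℤ)) 0 1 : ℤ)) : ZMod q)) * h3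

variable (N q) in
/-- **the correspondence `U_q` on `Γ₀(N)`**, `q ∣ N`. -/
def U0 : Corr (Gamma0 N) where
  X := ZMod q
  fin := ZMod.fintype q
  rep x := heckeMatrix q x.val
  perm γ := uPerm hq γ
  c γ x := uC hq γ x
  perm_mul γ δ x := uPerm_mul hq γ δ x
  spec γ x := uC_spec hq γ x

theorem Gamma0Map_U0_c (γ : Gamma0 N) (x : (U0 N q hq).X) :
    Gamma0Map N ((U0 N q hq).c γ x) = Gamma0Map N γ := Gamma0Map_uC hq γ x

variable (N q) in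
/-- **the correspondence `U_q` on `Γ₁(N)`**, `q ∣ N`. -/
def U1 : Corr (Gamma1 N) :=
  (U0 N q hq).restrict (Gamma1_in_Gamma0 N) (fun γ x hγ => by
    rw [mem_Gamma1_iff] at hγ ⊢
    exact (Gamma0Map_U0_c hq γ x).trans hγ)

theorem U1_rep (x : ZMod q) : (U1 N q hq).rep x = heckeMatrix q x.val := rfl

theorem det_U0_pos (x : (U0 N q hq).X) : 0 < ((U0 N q hq).rep x).val.det :=
  det_heckeMatrix_pos q _

theorem det_U1_pos (x : (U1 N q hq).X) : 0 < ((U1 N q hq).rep x).val.det :=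
  det_heckeMatrix_pos q _

end

end Fermat.Agent.S43.R0
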