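import Fermat.Agent.S43.R0.Pull
import Fermat.Agent.SS.Formal.Norm

/-!
# S43 / R0 : `U_q` on `π^*` of the classes of level `Γ₀(M q)`

`SS.Vq_normA` : `(Nm_α x)(t^q) = x(t^q) * ∏_{z^q = 1} (w x)(z t)`, i.e. `U_q (w x) = α^* (Nm_α x) / x` as Laurent series.  Hence

  `U_q (π^* (w x)) = π^* (α^* α_* x) - π^* x`   on Kummer modules:

on the classes killed by `α_*` (in particular on the `θ`-part if `θ` does not occur at level `M`), `U_q π^* = - π^* w`.
-/

set_option autoImplicit false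
set_option linter.unusedSectionVars false

open AlgebraicCurve ModularCurve

namespace Fermat.Agent.S43.R0

open Fermat.Agent.S48
open Fermat.Agent.ES (Qb GQ FF normSer Vq twistProd)

noncomputable section

variable {M q : ℕ} [NeZero M] [Fact q.Prime] (hqM : ¬ q ∣ M)
  {w : FF (M * q) →ₐ[Qb] FF (M * q)} (hw : SS.IsAL M q w)

include hqM hw in
/-- `U_q (w x) * x = Nm_α x`, as Laurent series. -/
theorem normSer_w_mul (x : FF (M * q)) :
    normSer q ((w x : FF (M * q)) : LaurentSeries Qb) * (x : LaurentSeries Qb)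
      = ((SS.normA M q x : FF M) : LaurentSeries Qb) := by
  obtain ⟨ζ, hζ⟩ := ES.exists_primitiveRoot_Qb q
  apply ES.Vq_injective (R := Qb) q
  rw [map_mul, ES.Vq_normSer q hζ, SS.Vq_normA (Fact.out : q.Prime) hqM hw, mul_comm]

variable (hN : 5 ≤ M * q)

include hqM hw in
/-- the same in `F1(M q)`. -/
theorem uF_incl_w (x : FF (M * q)) :
    uF (Dvd.intro_left M rfl) (DD hN) (incl hN (w x)) * incl hN x
      = incl hN (heckeAlphaBar Qb M q (SS.normA M q x)) := by
  apply Subtype.ext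
  rw [MulMemClass.coe_mul, coe_uF, coe_incl, coe_incl, coe_incl, coe_heckeAlphaBar]
  exact normSer_w_mul hqM hw x

include hqM in
/-- **`U_q π^* w = π^* α^* α_* - π^*`.** -/
theorem uKum_pull_w {m : ℕ} (hm : 0 < m) (x : ES.Kum (M * q) m) :
    uKum hN (Dvd.intro_left M rfl) hm (pull hN m (SS.wKum hw (Fact.out : q.Prime) m x))
      = pull hN m (SS.pullA M q m (SS.nmKum M q m x)) - pull hN m x := by
  obtain ⟨f, rfl⟩ := ES.Kum.mk_surjective x
  rw [eq_sub_iff_add_eq, SS.wKum_mk, SS.nmKum_mk, SS.pullA_mk, pull_mk, pull_mk, pull_mk, uKum_mk,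
    ← B1.Kum.mk_mul]
  exact congrArg B1.Kum.mk (Subtype.ext (Units.ext (uF_incl_w hqM hw hN _)))

include hqM in
/-- on the classes killed by `α_*`: `U_q π^* w = - π^*`. -/
theorem uKum_pull_w_of_nm {m : ℕ} (hm : 0 < m) (x : ES.Kum (M * q) m)
    (hx : SS.nmKum M q m x = 0) :
    uKum hN (Dvd.intro_left M rfl) hm (pull hN m (SS.wKum hw (Fact.out : q.Prime) m x))
      = - pull hN m x := by
  rw [uKum_pull_w hqM hw hN hm, hx, map_zero, map_zero, zero_sub]

end

end Fermat.Agent.S43.R0
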