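import Fermat.Agent.S43.R0.Pull
import Fermat.Agent.SS.Formal.Norm

/-!
# S43 / R0 / UX : (Y3)  `U_q` on pulled back classes

Level `N = M * q`, `w` the Atkin-Lehner involution `w_q` of `FF (M * q)` (`SS.IsAL`).

* `normSer_eq`       : `U_q f = α^*(Nm_α (w f)) / (w f)` as Laurent series (`SS.Vq_normA` applied to `w f`);
* `uKum_pull`        : `U_q (π^* x) = π^* (α^* Nm_α (w x) - w x)`;
* `uKum_pull_of_nm`  : if `Nm_α (w x) = 0` then `U_q (π^* x) = - π^* (w x)`;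
* `uKum_pull_of_eps` : if moreover `w x = - ε x` then `U_q (π^* x) = ε π^* x`.
-/

set_option autoImplicit false

open AlgebraicCurve ModularCurve

namespace Fermat.Agent.S43.R0

open Fermat.Agent.S48 Fermat.Agent.SS
open Fermat.Agent.ES (Qb FF GQ)

noncomputable section

variable {M q : ℕ} [NeZero M] [NeZero q] {w : FF (M * q) →ₐ[Qb] FF (M * q)}

/-- `U_q f * w f = α^* Nm_α (w f)`, as Laurent series. -/
theorem normSer_mul_w (hq : q.Prime) (hqM : ¬ q ∣ M) (hw : IsAL M q w) (f : FF (M * q)) :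
    ES.normSer q (f : LaurentSeries Qb) * ((w f : FF (M * q)) : LaurentSeries Qb)
      = ((normA M q (w f) : FF M) : LaurentSeries Qb) := by
  obtain ⟨ζ, hζ⟩ := ES.exists_primitiveRoot_Qb q
  apply ES.Vq_injective (R := Qb) q
  rw [Vq_normA hq hqM hw (w f), hw.invol hq, map_mul, ES.Vq_normSer q hζ, mul_comm]

end

noncomputable section

variable {M q : ℕ} [NeZero M] [NeZero q] [NeZero (M * q)] [Fact q.Prime]
  {w : FF (M * q) →ₐ[Qb] FF (M * q)} (hN : 5 ≤ M * q)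

/-- **(Y3)** `U_q (π^* x) = π^* (α^* Nm_α (w x) - w x)`. -/
theorem uKum_pull (hq : q.Prime) (hqM : ¬ q ∣ M) (hw : IsAL M q w) {m : ℕ} (hm : 0 < m)
    (x : ES.Kum (M * q) m) :
    uKum hN (dvd_mul_left q M) hm (pull hN m x)
      = pull hN m (pullA M q m (nmKum M q m (wKum hw hq m x)) - wKum hw hq m x) := by
  obtain ⟨f, rfl⟩ := ES.Kum.mk_surjective x
  rw [wKum_mk, nmKum_mk, pullA_mk, sub_eq_add_neg, ← ES.Kum.mk_inv, ← ES.Kum.mk_mul, pull_mk,
    pull_mk, uKum_mk]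
  refine congrArg B1.Kum.mk (Subtype.ext (Units.ext (Subtype.ext ?_)))
  have h := normSer_mul_w hq hqM hw ((f : (FF (M * q))ˣ) : FF (M * q))
  have hw0 : ((w ((f : (FF (M * q))ˣ) : FF (M * q)) : FF (M * q)) : LaurentSeries Qb) ≠ 0 := by
    intro h0
    have h1 : w ((f : (FF (M * q))ˣ) : FF (M * q)) = 0 := Subtype.ext h0
    exact (f : (FF (M * q))ˣ).ne_zero ((map_eq_zero w).1 h1)
  have e1 : ((uF (dvd_mul_left q M) (DD hN) (incl hN ((f : (FF (M * q))ˣ) : FF (M * q)))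
      : (X1.F1Q (M * q)).F) : LaurentSeries Qb)
      = ES.normSer q (((f : (FF (M * q))ˣ) : FF (M * q)) : LaurentSeries Qb) := by
    rw [coe_uF, coe_incl]
  have e2 : ((incl hN (heckeAlphaBar Qb M q (normA M q (w ((f : (FF (M * q))ˣ) : FF (M * q))))
        * (w ((f : (FF (M * q))ˣ) : FF (M * q)))⁻¹) : (X1.F1Q (M * q)).F) : LaurentSeries Qb)
      = ((normA M q (w ((f : (FF (M * q))ˣ) : FF (M * q))) : FF M) : LaurentSeries Qb)
        * ((w ((f : (FF (M * q))ˣ) : FF (M * q)) : FF (M * q)) : LaurentSeries Qb)⁻¹ := by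
    rw [coe_incl]
    exact congrArg₂ (· * ·) (coe_heckeAlphaBar M q _) rfl
  have e3 : (((⟨alphaU M q ((⟨normU M q ((⟨wU w f, hw.wU_mem_Dm hq f.2⟩ : ES.Dm (M * q) m) :
        (FF (M * q))ˣ), normU_mem_Dm (hw.wU_mem_Dm hq f.2)⟩ : ES.Dm M m) : (FF M)ˣ),
        alphaU_mem_Dm (normU_mem_Dm (hw.wU_mem_Dm hq f.2))⟩ : ES.Dm (M * q) m)
        * (⟨wU w f, hw.wU_mem_Dm hq f.2⟩ : ES.Dm (M * q) m)⁻¹ : ES.Dm (M * q) m) : (FF (M * q))ˣ)
      = alphaU M q (normU M q (wU w f)) * (wU w f)⁻¹ := rfl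
  have e4 : ((alphaU M q (normU M q (wU w f)) * (wU w f)⁻¹ : (FF (M * q))ˣ) : FF (M * q))
      = heckeAlphaBar Qb M q (normA M q (w ((f : (FF (M * q))ˣ) : FF (M * q))))
        * (w ((f : (FF (M * q))ˣ) : FF (M * q)))⁻¹ := by
    rw [Units.val_mul, Units.val_inv_eq_inv_val, coe_alphaU, coe_normU, coe_wU]
  refine e1.trans (Eq.trans ?_ (Eq.trans e2.symm ?_))
  swap
  · rw [← e4, ← e3]; rfl
  rw [← h, mul_inv_cancel_right₀ hw0]

theorem uKum_pull_of_nm (hq : q.Prime) (hqM : ¬ q ∣ M) (hw : IsAL M q w) {m : ℕ} (hm : 0 < m)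
    (x : ES.Kum (M * q) m) (hx : nmKum M q m (wKum hw hq m x) = 0) :
    uKum hN (dvd_mul_left q M) hm (pull hN m x) = - pull hN m (wKum hw hq m x) := by
  rw [uKum_pull hN hq hqM hw hm, hx, map_zero, zero_sub, map_neg]

theorem uKum_pull_of_eps (hq : q.Prime) (hqM : ¬ q ∣ M) (hw : IsAL M q w) {m : ℕ} (hm : 0 < m)
    (x : ES.Kum (M * q) m) (hx : nmKum M q m x = 0) (ε : ℤ) (hε : wKum hw hq m x = (-ε) • x) :
    uKum hN (dvd_mul_left q M) hm (pull hN m x) = ε • pull hN m x := by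
  rw [uKum_pull_of_nm hN hq hqM hw hm x (by rw [hε, map_zsmul, hx, smul_zero]), hε, map_zsmul,
    neg_smul, neg_neg]

end

end Fermat.Agent.S43.R0
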